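import Fermat.Agent.LittlewoodGRH.Main
import Fermat.Agent.ConductorDiscr.AbelianBounds
import Mathlib.NumberTheory.NumberField.InfinitePlace.TotallyRealComplex

/-!
# The class number on the Riemann hypothesis

The effective Brauer-Siegel theorem, and Littlewood's bounds for the class number of an imaginary
quadratic field.
-/

set_option autoImplicit false
set_option linter.style.haveILetI false

noncomputable section

universe u

open NumberField Module InfinitePlace
open FA.ArtinHooley (FieldRH fieldSize)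
open scoped Real Classical

namespace FA.LittlewoodGRH

/-- No units of infinite order, regulator `1`. -/
theorem regulator_of_rank_zero (K : Type u) [Field K] [NumberField K] (h : Units.rank K = 0) :
    Units.regulator K = 1 := by
  haveI : IsEmpty (Fin (Units.rank K)) := h ▸ Fin.isEmpty
  rw [Units.regulator_eq_regOfFamily_fundSystem]
  obtain ⟨w⟩ := (inferInstance : Nonempty (InfinitePlace K))
  haveI : IsEmpty {v : InfinitePlace K // v ≠ w} := by
    refine Fintype.card_eq_zero_iff.1 ?_
    rw [Fintype.card_subtype_compl, Fintype.card_subtype_eq]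
    exact h
  have e := Fintype.equivOfCardEq (show Fintype.card {v : InfinitePlace K // v ≠ w} =
    Fintype.card (Fin (Units.rank K)) by simp)
  rw [Units.regOfFamily_eq_det (Units.fundSystem K) w e, Matrix.det_isEmpty, abs_one]

/-- `h R`. -/
theorem classNumber_mul_regulator (K : Type u) [Field K] [NumberField K] :
    (classNumber K : ℝ) * Units.regulator K = dedekindZeta_residue K *
      (Units.torsionOrder K * √((discr K).natAbs : ℝ) /
        (2 ^ nrRealPlaces K * (2 * π) ^ nrComplexPlaces K)) := by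
  have h1 : ((discr K).natAbs : ℝ) = |(discr K : ℝ)| := by rw [Nat.cast_natAbs, Int.cast_abs]
  have h2 : 0 < √|(discr K : ℝ)| :=
    Real.sqrt_pos.2 (abs_pos.2 (Int.cast_ne_zero.2 (discr_ne_zero K)))
  have h3 : (0 : ℝ) < Units.torsionOrder K := Nat.cast_pos.2 (Units.torsionOrder_pos K)
  rw [h1, dedekindZeta_residue_def]
  field_simp

/-- **The effective Brauer-Siegel theorem.** -/
theorem exists_classNumber_mul_regulator_bounds : ∃ c C : ℝ, 0 < c ∧ 1 ≤ C ∧
    ∀ (K : Type u) [Field K] [NumberField K], FieldRH K → FieldRH ℚ →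
      c / Real.log (2 * fieldSize K) * (Units.torsionOrder K * √((discr K).natAbs : ℝ) /
          (2 ^ nrRealPlaces K * (2 * π) ^ nrComplexPlaces K)) ≤
        classNumber K * Units.regulator K ∧
      (classNumber K : ℝ) * Units.regulator K ≤
        (C * Real.log (2 * fieldSize K)) ^ (finrank ℚ K - 1) *
          (Units.torsionOrder K * √((discr K).natAbs : ℝ) /
            (2 ^ nrRealPlaces K * (2 * π) ^ nrComplexPlaces K)) := by
  obtain ⟨c, C, hc, hC, h⟩ := exists_residue_bounds.{u}
  refine ⟨c, C, hc, hC, fun K _ _ hK hQ => ?_⟩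
  rw [classNumber_mul_regulator]
  exact ⟨mul_le_mul_of_nonneg_right (h K hK hQ).1 (by positivity),
    mul_le_mul_of_nonneg_right (h K hK hQ).2 (by positivity)⟩

theorem log_two_mul_le {L : ℝ} (hL : 0 ≤ L) :
    1 ≤ Real.log (2 * (L + 3)) ∧ Real.log (2 * (L + 3)) ≤ 2 * Real.log (L + 16) := by
  constructor
  · rw [Real.le_log_iff_exp_le (by linarith)]
    linarith [Real.exp_one_lt_three]
  · have e := Real.log_pow (L + 16) 2
    rw [Nat.cast_ofNat] at e
    rw [← e]
    exact Real.log_le_log (by linarith) (by nlinarith)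

/-- **The residue for quadratic fields.** -/
theorem exists_quadratic_residue_bounds : ∃ c C : ℝ, 0 < c ∧ 0 < C ∧
    ∀ (K : Type u) [Field K] [NumberField K], finrank ℚ K = 2 → FieldRH K → FieldRH ℚ →
      c / Real.log (Real.log ((discr K).natAbs : ℝ) + 16) ≤ dedekindZeta_residue K ∧
        dedekindZeta_residue K ≤ C * Real.log (Real.log ((discr K).natAbs : ℝ) + 16) := by
  obtain ⟨c, C, hc, hC, h⟩ := exists_residue_bounds.{u}
  refine ⟨c / 2, 2 * C, by positivity, by linarith, fun K _ _ hn hK hQ => ?_⟩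
  obtain ⟨h1, h2⟩ := h K hK hQ
  obtain ⟨L, hL⟩ : ∃ L, L = Real.log ((discr K).natAbs : ℝ) := ⟨_, rfl⟩
  obtain ⟨e1, e2⟩ := log_two_mul_le (hL ▸ Real.log_natCast_nonneg _ : 0 ≤ L)
  have hS : fieldSize K = L + 3 := by rw [fieldSize, hn, ← hL]; push_cast; ring
  rw [hS] at h1 h2
  rw [hn, show 2 - 1 = 1 from rfl, pow_one] at h2
  rw [← hL]
  refine ⟨le_trans ?_ h1, h2.trans (le_of_le_of_eq
    (mul_le_mul_of_nonneg_left e2 (by linarith)) (by ring))⟩
  rw [div_div]
  exact div_le_div_of_nonneg_left hc.le (by linarith) e2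

/-- **Littlewood's bounds for the class number.** -/
theorem exists_classNumber_bounds : ∃ c C : ℝ, 0 < c ∧ 0 < C ∧
    ∀ (K : Type u) [Field K] [NumberField K] [IsTotallyComplex K], finrank ℚ K = 2 →
      FieldRH K → FieldRH ℚ →
      c * √((discr K).natAbs : ℝ) / Real.log (Real.log ((discr K).natAbs : ℝ) + 16) ≤
          classNumber K ∧
        (classNumber K : ℝ) ≤
          C * √((discr K).natAbs : ℝ) * Real.log (Real.log ((discr K).natAbs : ℝ) + 16) := by
  obtain ⟨c, C, hc, hC, h⟩ := exists_quadratic_residue_bounds.{u}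
  refine ⟨c / (2 * π), 8 * C / (2 * π), by positivity, by positivity, fun K _ _ _ hn hK hQ => ?_⟩
  obtain ⟨h1, h2⟩ := h K hn hK hQ
  obtain ⟨G, hG⟩ : ∃ G, G = Real.log (Real.log ((discr K).natAbs : ℝ) + 16) := ⟨_, rfl⟩
  have hG0 : 0 < G := hG ▸ Real.log_pos (by linarith [Real.log_natCast_nonneg (discr K).natAbs])
  rw [← hG] at h1 h2 ⊢
  have hr1 : nrRealPlaces K = 0 := IsTotallyComplex.nrRealPlaces_eq_zero K
  have hr2 : nrComplexPlaces K = 1 := by
    have := card_add_two_mul_card_eq_rank K
    omega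
  have hrank : Units.rank K = 0 := by
    rw [Units.rank, card_eq_nrRealPlaces_add_nrComplexPlaces, hr1, hr2]
  have e := classNumber_mul_regulator K
  rw [regulator_of_rank_zero K hrank, mul_one, hr1, hr2, pow_zero, one_mul, pow_one] at e
  rw [e]
  have hw1 : (1 : ℝ) ≤ Units.torsionOrder K := Nat.one_le_cast.2 (Units.torsionOrder_pos K)
  have hw8 : (Units.torsionOrder K : ℝ) ≤ 8 := by
    exact_mod_cast (FA.ConductorDiscr.torsionOrder_le K).trans (by rw [hn]; norm_num)
  have hres := (dedekindZeta_residue_pos K).le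
  constructor
  · calc c / (2 * π) * √((discr K).natAbs : ℝ) / G
        = c / G * (1 * √((discr K).natAbs : ℝ) / (2 * π)) := by ring
      _ ≤ _ := by gcongr
  · calc dedekindZeta_residue K * ((Units.torsionOrder K : ℝ) * √((discr K).natAbs : ℝ) / (2 * π))
        ≤ C * G * (8 * √((discr K).natAbs : ℝ) / (2 * π)) := by gcongr
      _ = _ := by ring

/-- **The discriminant is bounded by the class number.** -/
theorem exists_discr_le_classNumber : ∃ D : ℕ → ℝ,
    ∀ (K : Type u) [Field K] [NumberField K] [IsTotallyComplex K], finrank ℚ K = 2 →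
      FieldRH K → FieldRH ℚ → ((discr K).natAbs : ℝ) ≤ D (classNumber K) := by
  obtain ⟨c, C, hc, -, h⟩ := exists_classNumber_bounds.{u}
  refine ⟨fun n => (8 * n / c + 4) ^ 4, fun K _ _ _ hn hK hQ => ?_⟩
  have h1 := (h K hn hK hQ).1
  obtain ⟨d, hd⟩ : ∃ d, d = ((discr K).natAbs : ℝ) := ⟨_, rfl⟩
  have hd1 : 1 ≤ d := hd ▸ Nat.one_le_cast.2 (Int.natAbs_pos.2 (discr_ne_zero K))
  rw [← hd] at h1 ⊢
  obtain ⟨t, ht⟩ : ∃ t, t = d ^ (1 / 4 : ℝ) := ⟨_, rfl⟩
  have ht1 : 1 ≤ t := ht ▸ Real.one_le_rpow hd1 (by norm_num)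
  have htd : t ^ 4 = d := by
    rw [ht, ← Real.rpow_natCast, ← Real.rpow_mul (by linarith)]; norm_num
  have hsq : √d = t ^ 2 := by
    rw [← htd, show t ^ 4 = (t ^ 2) ^ 2 by ring, Real.sqrt_sq (by positivity)]
  have hlogd : Real.log d ≤ 4 * t := by
    rw [← htd, Real.log_pow]
    push_cast
    linarith [Real.log_le_sub_one_of_pos (show 0 < t by linarith)]
  have hl0 : 0 ≤ Real.log d := Real.log_nonneg hd1
  have hG0 : 0 < Real.log (Real.log d + 16) := Real.log_pos (by linarith)
  have hG : Real.log (Real.log d + 16) ≤ 8 * t := by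
    have e1 : Real.log (Real.log d + 16) = Real.log 4 + Real.log ((Real.log d + 16) / 4) := by
      rw [← Real.log_mul four_ne_zero (by positivity)]; ring_nf
    have e2 := Real.log_le_sub_one_of_pos (show (0 : ℝ) < 4 by norm_num)
    have e3 := Real.log_le_sub_one_of_pos (show 0 < (Real.log d + 16) / 4 by linarith)
    linarith
  rw [hsq, div_le_iff₀ hG0] at h1
  have h2 : c * t ^ 2 ≤ (classNumber K : ℝ) * (8 * t) :=
    h1.trans (mul_le_mul_of_nonneg_left hG (Nat.cast_nonneg _))
  have h3 : t ≤ 8 * (classNumber K : ℝ) / c := by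
    rw [le_div_iff₀ hc]
    nlinarith
  rw [← htd]
  exact pow_le_pow_left₀ (by linarith) (h3.trans (le_add_of_nonneg_right (by norm_num))) 4

end FA.LittlewoodGRH

end
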