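import Fermat.Agent.LittlewoodGRH.Series
import Fermat.Agent.ArtinHooley.PrimeIdeal
import Fermat.Agent.PrimesMinusOne.TotientSum

/-!
# The residue of `ζ_K` on the Riemann hypothesis

After Littlewood. `log (ζ_K / ζ) s = ∑ (Λ_K n - Λ n) n ^ (-s) / log n`; the partial sums of the
coefficients are `O (S n ^ (3/4))` on the hypothesis, so the part `n > M ≥ S ^ 8` is bounded, and
the part `n ≤ M` lies between `-H` and `(n_K - 1) H`, `H = log log M + O (1)`.
-/

set_option autoImplicit false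
set_option linter.style.haveILetI false

noncomputable section

universe u

open NumberField Module Finset Filter Topology
open FA.DedekindPIT (mangoldtK mangoldtK_le mangoldtK_nonneg psiK)
open FA.DedekindZF (logZeta)
open FA.ArtinHooley (FieldRH fieldSize)
open scoped Real Classical ArithmeticFunction.vonMangoldt

namespace FA.LittlewoodGRH

/-- **Partial summation.** -/
theorem sum_Ioc_mul_eq (d w : ℕ → ℝ) (M : ℕ) : ∀ N, M ≤ N →
    ∑ n ∈ Ioc M N, d n * w n = (∑ k ∈ Ioc 0 N, d k) * w N - (∑ k ∈ Ioc 0 M, d k) * w M +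
      ∑ n ∈ Ico M N, (∑ k ∈ Ioc 0 n, d k) * (w n - w (n + 1)) := by
  intro N hN
  induction N, hN using Nat.le_induction with
  | base => simp
  | succ n hn ih =>
    rw [Finset.sum_Ioc_succ_top hn, ih, Finset.sum_Ico_succ_top hn,
      Finset.sum_Ioc_succ_top (Nat.zero_le n)]
    ring

theorem weight_diff_le {s : ℝ} (hs : 1 ≤ s) (hs2 : s ≤ 2) {n : ℕ} (hn : 3 ≤ n) :
    |weight s n - weight s (n + 1)| ≤ 3 / (n : ℝ) ^ 2 ∧ weight s n ≤ 1 / n := by
  have hn3 : (3 : ℝ) ≤ n := Nat.ofNat_le_cast.2 hn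
  have hn0 : (0 : ℝ) < n := by linarith
  have hl : 1 ≤ Real.log n := by
    rw [Real.le_log_iff_exp_le hn0]; linarith [Real.exp_one_lt_three]
  have hle : (n : ℝ) ^ (-s) ≤ (n : ℝ)⁻¹ := by
    rw [← Real.rpow_neg_one]
    exact Real.rpow_le_rpow_of_exponent_le (by linarith) (by linarith)
  have hp : 0 < (n : ℝ) ^ (-s) := Real.rpow_pos_of_pos hn0 _
  refine ⟨?_, (div_le_self hp.le hl).trans (hle.trans_eq (one_div _).symm)⟩
  obtain ⟨q, hq⟩ : ∃ q, q = ((n + 1 : ℕ) : ℝ) ^ (-s) := ⟨_, rfl⟩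
  obtain ⟨L, hL⟩ : ∃ L, L = Real.log ((n + 1 : ℕ) : ℝ) := ⟨_, rfl⟩
  rw [weight, weight, ← hq, ← hL]
  push_cast at hq hL
  have hq0 : 0 < q := hq ▸ Real.rpow_pos_of_pos (by linarith) _
  have hqp : q ≤ (n : ℝ) ^ (-s) :=
    hq ▸ Real.rpow_le_rpow_of_nonpos hn0 (by linarith) (by linarith)
  have hLl : Real.log n ≤ L := hL ▸ Real.log_le_log hn0 (by linarith)
  have h1 : (n : ℝ) ^ (-s) - q ≤ (n : ℝ) ^ (-s) * (s / n) := by
    have e : q = (n : ℝ) ^ (-s) * (1 + (n : ℝ)⁻¹) ^ (-s) := by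
      rw [hq, ← Real.mul_rpow hn0.le (by positivity), mul_add, mul_one,
        mul_inv_cancel₀ hn0.ne']
    have e2 : 1 - s / n ≤ (1 + (n : ℝ)⁻¹) ^ (-s) := by
      rw [Real.rpow_def_of_pos (by positivity)]
      refine le_trans ?_ (Real.add_one_le_exp _)
      have h3 := Real.log_le_sub_one_of_pos (show (0 : ℝ) < 1 + (n : ℝ)⁻¹ by positivity)
      rw [div_eq_mul_inv]
      nlinarith
    rw [e]
    nlinarith
  have h2 : L - Real.log n ≤ (n : ℝ)⁻¹ := by
    rw [hL, ← Real.log_div (by linarith) hn0.ne']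
    refine (Real.log_le_sub_one_of_pos (by positivity)).trans_eq ?_
    field_simp
    ring
  have hl0 : Real.log n ≠ 0 := by linarith
  have hL0 : L ≠ 0 := by linarith
  have hlL : 0 ≤ Real.log n * L := mul_nonneg (by linarith) (by linarith)
  have e : (n : ℝ) ^ (-s) / Real.log n - q / L =
      ((n : ℝ) ^ (-s) - q) / Real.log n + q * ((L - Real.log n) / (Real.log n * L)) := by
    field_simp
    ring
  have t1 : ((n : ℝ) ^ (-s) - q) / Real.log n ≤ 2 / (n : ℝ) ^ 2 := by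
    refine (div_le_self (by linarith) hl).trans (h1.trans ?_)
    calc (n : ℝ) ^ (-s) * (s / n) ≤ (n : ℝ)⁻¹ * (2 / n) := by gcongr
      _ = _ := by ring
  have t2 : q * ((L - Real.log n) / (Real.log n * L)) ≤ 1 / (n : ℝ) ^ 2 := by
    calc q * ((L - Real.log n) / (Real.log n * L))
        ≤ (n : ℝ)⁻¹ * (n : ℝ)⁻¹ := mul_le_mul (hqp.trans hle)
          ((div_le_self (by linarith) (one_le_mul_of_one_le_of_one_le hl (hl.trans hLl))).trans h2)
          (div_nonneg (by linarith) hlL) (by positivity)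
      _ = _ := by ring
  rw [e, abs_of_nonneg (add_nonneg (div_nonneg (by linarith) (by linarith))
    (mul_nonneg hq0.le (div_nonneg (by linarith) hlL)))]
  calc _ ≤ 2 / (n : ℝ) ^ 2 + 1 / (n : ℝ) ^ 2 := add_le_add t1 t2
    _ = _ := by ring

/-- **The tail.** -/
theorem abs_tail_le {d : ℕ → ℝ} {E s : ℝ} (hE : 0 ≤ E) (hs : 1 ≤ s) (hs2 : s ≤ 2) {M N : ℕ}
    (hM : 3 ≤ M) (hMN : M ≤ N)
    (hD : ∀ n : ℕ, 1 ≤ n → |∑ k ∈ Ioc 0 n, d k| ≤ E * (n : ℝ) ^ (3 / 4 : ℝ)) :
    |∑ n ∈ Ioc M N, d n * weight s n| ≤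
      (2 + 3 * ∑' n : ℕ, 1 / (n : ℝ) ^ (9 / 8 : ℝ)) * (E * (M : ℝ) ^ (-(1 / 8) : ℝ)) := by
  obtain ⟨T, hT⟩ : ∃ T, T = E * (M : ℝ) ^ (-(1 / 8) : ℝ) := ⟨_, rfl⟩
  rw [← hT, sum_Ioc_mul_eq d _ M N hMN]
  have hM0 : (0 : ℝ) < M := Nat.cast_pos.2 (by omega)
  have hpt : ∀ n : ℕ, M ≤ n → E * (n : ℝ) ^ (3 / 4 : ℝ) / n ≤ T := fun n hn => by
    have hn0 : (0 : ℝ) < n := Nat.cast_pos.2 (by omega)
    have hn1 : (1 : ℝ) ≤ n := Nat.one_le_cast.2 (by omega)
    rw [hT, mul_div_assoc]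
    refine mul_le_mul_of_nonneg_left ?_ hE
    rw [← Real.rpow_sub_one hn0.ne']
    exact (Real.rpow_le_rpow_of_exponent_le hn1 (by norm_num)).trans
      (Real.rpow_le_rpow_of_nonpos hM0 (Nat.cast_le.2 hn) (by norm_num))
  have hend : ∀ n : ℕ, M ≤ n → |(∑ k ∈ Ioc 0 n, d k) * weight s n| ≤ T := fun n hn => by
    rw [abs_mul, abs_of_nonneg (weight_nonneg s n)]
    refine (mul_le_mul (hD n (by omega)) (weight_diff_le hs hs2 (by omega)).2 (weight_nonneg s n)
      (by positivity)).trans ?_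
    rw [mul_one_div]
    exact hpt n hn
  have hmid : |∑ n ∈ Ico M N, (∑ k ∈ Ioc 0 n, d k) * (weight s n - weight s (n + 1))| ≤
      3 * T * ∑' n : ℕ, 1 / (n : ℝ) ^ (9 / 8 : ℝ) := by
    refine (abs_sum_le_sum_abs _ _).trans (le_trans (sum_le_sum (g := fun n : ℕ =>
      3 * T * (1 / (n : ℝ) ^ (9 / 8 : ℝ))) fun n hn => ?_) ?_)
    · have hn' := (Finset.mem_Ico.1 hn).1
      have hn0 : (0 : ℝ) < n := Nat.cast_pos.2 (by omega)
      rw [abs_mul]
      refine (mul_le_mul (hD n (by omega)) (weight_diff_le hs hs2 (by omega)).1 (abs_nonneg _)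
        (by positivity)).trans ?_
      have e : E * (n : ℝ) ^ (3 / 4 : ℝ) * (3 / (n : ℝ) ^ 2) =
          3 * (E * (n : ℝ) ^ (-(1 / 8) : ℝ)) * (1 / (n : ℝ) ^ (9 / 8 : ℝ)) := by
        rw [Real.rpow_neg hn0.le, show (n : ℝ) ^ 2 = (n : ℝ) ^ (3 / 4 : ℝ) *
          ((n : ℝ) ^ (1 / 8 : ℝ) * (n : ℝ) ^ (9 / 8 : ℝ)) by
          rw [← Real.rpow_add hn0, ← Real.rpow_add hn0, ← Real.rpow_natCast]; norm_num]
        field_simp
      rw [e, hT]
      refine mul_le_mul_of_nonneg_right (mul_le_mul_of_nonneg_left (mul_le_mul_of_nonneg_left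
        (Real.rpow_le_rpow_of_nonpos hM0 (Nat.cast_le.2 hn') (by norm_num)) hE) (by norm_num))
        (by positivity)
    · rw [← mul_sum]
      refine mul_le_mul_of_nonneg_left ?_ (by rw [hT]; positivity)
      exact (Real.summable_one_div_nat_rpow.2 (by norm_num)).sum_le_tsum _
        fun n _ => by positivity
  have a1 := abs_le.1 (hend N hMN)
  have a2 := abs_le.1 (hend M le_rfl)
  have a3 := abs_le.1 hmid
  rw [abs_le]
  constructor <;> linarith

/-- **The head.** -/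
theorem head_le {s : ℝ} (hs : 1 ≤ s) {M : ℕ} (hM : 3 ≤ M) :
    ∑ n ∈ Ioc 0 M, Λ n * weight s n ≤ Real.log (2 * Real.log M) + 7 := by
  have hM3 : (3 : ℝ) ≤ M := Nat.ofNat_le_cast.2 hM
  have hl : 1 ≤ Real.log M := by
    rw [Real.le_log_iff_exp_le (by linarith)]; linarith [Real.exp_one_lt_three]
  obtain ⟨e, he⟩ : ∃ e, e = (Real.log M)⁻¹ := ⟨_, rfl⟩
  have he0 : 0 < e := he ▸ by positivity
  have he1 : e ≤ 1 := he ▸ inv_le_one_of_one_le₀ hl
  have h1 : ∀ n ∈ Ioc 0 M,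
      Λ n * weight s n ≤ mangoldtK ℚ n * weight (1 + e) n + e * (Λ n / n) := fun n hn => by
    rw [mangoldtK_rat]
    have hn1 := (Finset.mem_Ioc.1 hn).1
    rcases eq_or_ne n 1 with rfl | hne
    · simp
    have hn0 : (0 : ℝ) < n := Nat.cast_pos.2 hn1
    have hln : 0 < Real.log n := Real.log_pos (Nat.one_lt_cast.2 (by omega))
    have hΛ : 0 ≤ Λ n := ArithmeticFunction.vonMangoldt_nonneg
    refine le_of_le_of_eq (mul_le_mul_of_nonneg_left
      (show weight s n ≤ weight (1 + e) n + e / n from ?_) hΛ) (by ring)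
    have e1 : (n : ℝ) ^ (-s) ≤ (n : ℝ)⁻¹ := by
      rw [← Real.rpow_neg_one]
      exact Real.rpow_le_rpow_of_exponent_le (Nat.one_le_cast.2 hn1) (by linarith)
    have e2 : (n : ℝ) ^ (-(1 + e)) = (n : ℝ)⁻¹ * (n : ℝ) ^ (-e) := by
      rw [show -(1 + e) = -1 + -e by ring, Real.rpow_add hn0, Real.rpow_neg_one]
    have e3 : 1 - e * Real.log n ≤ (n : ℝ) ^ (-e) := by
      rw [Real.rpow_def_of_pos hn0]
      linarith [Real.add_one_le_exp (Real.log n * -e)]
    rw [weight, weight, e2, div_le_iff₀ hln]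
    refine e1.trans (le_of_le_of_eq (b := (n : ℝ)⁻¹ * ((n : ℝ) ^ (-e) + e * Real.log n))
      (le_mul_of_one_le_right (by positivity) (by linarith)) ?_)
    field_simp
  refine (sum_le_sum h1).trans ?_
  rw [sum_add_distrib, ← mul_sum]
  have h2 : ∑ n ∈ Ioc 0 M, mangoldtK ℚ n * weight (1 + e) n ≤ Real.log (2 * Real.log M) := by
    have hS := hasSum_mangoldtK_weight ℚ (show 1 < 1 + e by linarith)
    refine (sum_le_hasSum _ (fun n _ => mul_nonneg (mangoldtK_nonneg ℚ n) (weight_nonneg _ n))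
      hS).trans ((logZeta_rat_le (by linarith)).trans ?_)
    refine Real.log_le_log (div_pos (by linarith) (by linarith)) ?_
    rw [show (1 + e - 1 : ℝ) = e by ring, div_le_iff₀ he0, he]
    field_simp
    linarith
  have h3 := (abs_le.1 (FA.PrimesMinusOne.abs_sum_vonMangoldt_div_sub_le
    (show 1 ≤ M by omega))).2
  have h4 : e * ∑ n ∈ Ioc 0 M, Λ n / n ≤ e * (Real.log M + 6) :=
    mul_le_mul_of_nonneg_left (by linarith) he0.le
  have h5 : e * (Real.log M + 6) ≤ 7 := by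
    rw [he, inv_mul_le_iff₀ (by linarith)]
    linarith
  linarith

/-- A power beats `(log x + 4) ^ 4`. -/
theorem gauge_le_rpow {x : ℝ} (hx : 1 ≤ x) :
    √x * (Real.log x + 4) ^ 4 ≤ 160000 * x ^ (3 / 4 : ℝ) := by
  have h1 : Real.log x + 4 ≤ 20 * x ^ (1 / 16 : ℝ) := by
    have e1 := Real.log_le_rpow_div (show 0 ≤ x by linarith) (show (0 : ℝ) < 1 / 16 by norm_num)
    have e2 := Real.one_le_rpow hx (show (0 : ℝ) ≤ 1 / 16 by norm_num)
    linarith
  refine (mul_le_mul_of_nonneg_left (pow_le_pow_left₀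
    (by linarith [Real.log_nonneg hx]) h1 4) (Real.sqrt_nonneg x)).trans (le_of_eq ?_)
  rw [mul_pow, ← Real.rpow_natCast (x ^ (1 / 16 : ℝ)), ← Real.rpow_mul (by linarith),
    Real.sqrt_eq_rpow, mul_left_comm, ← Real.rpow_add (by linarith)]
  norm_num

/-- **The partial sums on the hypothesis.** -/
theorem exists_partial_le : ∃ A : ℝ, 0 ≤ A ∧
    ∀ (K : Type u) [Field K] [NumberField K], FieldRH K → FieldRH ℚ → ∀ n : ℕ, 1 ≤ n →
      |∑ k ∈ Ioc 0 n, (mangoldtK K k - mangoldtK ℚ k)| ≤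
        A * fieldSize K * (n : ℝ) ^ (3 / 4 : ℝ) := by
  obtain ⟨A, hA, h⟩ := FA.ArtinHooley.exists_psiK_le.{u}
  obtain ⟨A', hA', h'⟩ := FA.ArtinHooley.exists_psiK_le.{0}
  refine ⟨(A + A' * fieldSize ℚ) * 160000, by
    have := (FA.ArtinHooley.one_le_fieldSize (K := ℚ)).1
    positivity, fun K _ _ hK hQ n hn => ?_⟩
  have hn1 : (1 : ℝ) ≤ n := Nat.one_le_cast.2 hn
  have e : ∀ (F : Type u) [Field F] [NumberField F],
      psiK F (n : ℝ) = ∑ k ∈ Ioc 0 n, mangoldtK F k := fun F _ _ => by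
    rw [psiK, Nat.floor_natCast, ← Finset.Icc_succ_left_eq_Ioc]
    rfl
  have e' : psiK ℚ (n : ℝ) = ∑ k ∈ Ioc 0 n, mangoldtK ℚ k := by
    rw [psiK, Nat.floor_natCast, ← Finset.Icc_succ_left_eq_Ioc]
    rfl
  obtain ⟨P, hP⟩ : ∃ P, P = √(n : ℝ) * (Real.log n + 4) ^ 4 := ⟨_, rfl⟩
  obtain ⟨hS1, -⟩ := FA.ArtinHooley.one_le_fieldSize (K := K)
  have hP0 : 0 ≤ P := by
    rw [hP]
    have := Real.log_nonneg hn1
    positivity
  have hPle := gauge_le_rpow hn1
  rw [← hP] at hPle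
  have h1 := abs_le.1 (h K hK n hn1)
  have h2 := abs_le.1 (h' ℚ hQ n hn1)
  rw [e K, ← hP] at h1
  rw [e', ← hP] at h2
  have hQS : A' * fieldSize ℚ * P ≤ A' * fieldSize ℚ * fieldSize K * P :=
    mul_le_mul_of_nonneg_right (le_mul_of_one_le_right (mul_nonneg hA'
      (zero_le_one.trans (FA.ArtinHooley.one_le_fieldSize (K := ℚ)).1)) hS1) hP0
  have hfin : (A + A' * fieldSize ℚ) * fieldSize K * P ≤
      (A + A' * fieldSize ℚ) * fieldSize K * (160000 * (n : ℝ) ^ (3 / 4 : ℝ)) :=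
    mul_le_mul_of_nonneg_left hPle (by
      have := (FA.ArtinHooley.one_le_fieldSize (K := ℚ)).1
      positivity)
  rw [sum_sub_distrib, abs_le]
  constructor <;> nlinarith

/-- **Littlewood's bounds.** -/
theorem exists_residue_bounds : ∃ c C : ℝ, 0 < c ∧ 1 ≤ C ∧
    ∀ (K : Type u) [Field K] [NumberField K], FieldRH K → FieldRH ℚ →
      c / Real.log (2 * fieldSize K) ≤ dedekindZeta_residue K ∧
        dedekindZeta_residue K ≤ (C * Real.log (2 * fieldSize K)) ^ (finrank ℚ K - 1) := by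
  obtain ⟨A, hA, hD⟩ := exists_partial_le.{u}
  obtain ⟨Z, hZ⟩ : ∃ Z, Z = ∑' n : ℕ, 1 / (n : ℝ) ^ (9 / 8 : ℝ) := ⟨_, rfl⟩
  have hZ0 : 0 ≤ Z := hZ ▸ tsum_nonneg fun n => by positivity
  obtain ⟨T, hT⟩ : ∃ T, T = (2 + 3 * Z) * A := ⟨_, rfl⟩
  have hT0 : 0 ≤ T := by rw [hT]; positivity
  refine ⟨Real.exp (-(7 + T)) / 18, 18 * Real.exp (7 + T), by positivity,
    le_trans (by norm_num) (le_mul_of_one_le_right (by norm_num)
      (Real.one_le_exp (by linarith))), fun K _ _ hK hQ => ?_⟩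
  obtain ⟨S, hS⟩ : ∃ S, S = fieldSize K := ⟨_, rfl⟩
  rw [← hS]
  have hS2 : 2 ≤ S := by
    have h0 : (1 : ℝ) ≤ finrank ℚ K := Nat.one_le_cast.2 finrank_pos
    have h1 : 0 ≤ Real.log (((discr K).natAbs : ℕ) : ℝ) := Real.log_natCast_nonneg _
    rw [hS, fieldSize]
    linarith
  obtain ⟨M, hM⟩ : ∃ M, M = ⌈S ^ 8⌉₊ := ⟨_, rfl⟩
  have hS8 : (256 : ℝ) ≤ S ^ 8 := by
    calc (256 : ℝ) = 2 ^ 8 := by norm_num
      _ ≤ _ := pow_le_pow_left₀ two_pos.le hS2 8
  have hM8 : S ^ 8 ≤ (M : ℝ) := hM ▸ Nat.le_ceil _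
  have hM3 : 3 ≤ M := by
    have : (3 : ℝ) ≤ M := by linarith
    exact_mod_cast this
  have hMle : (M : ℝ) ≤ 2 * S ^ 8 := by
    have := Nat.ceil_lt_add_one (show 0 ≤ S ^ 8 by positivity)
    rw [← hM] at this
    linarith
  have hlM : 1 ≤ Real.log M := by
    rw [Real.le_log_iff_exp_le (by linarith)]; linarith [Real.exp_one_lt_three]
  have hl1 : 1 ≤ Real.log (2 * S) := by
    rw [Real.le_log_iff_exp_le (by linarith)]; linarith [Real.exp_one_lt_three]
  obtain ⟨H, hH⟩ : ∃ H, H = Real.log (18 * Real.log (2 * S)) + 7 := ⟨_, rfl⟩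
  have hHle : Real.log (2 * Real.log M) + 7 ≤ H := by
    rw [hH]
    refine add_le_add (Real.log_le_log (by linarith) ?_) le_rfl
    have h1 := Real.log_le_log (show (0 : ℝ) < M by linarith) hMle
    rw [Real.log_mul two_ne_zero (by positivity), Real.log_pow] at h1
    rw [Real.log_mul two_ne_zero (by linarith)]
    have h2 : 0 ≤ Real.log S := Real.log_nonneg (by linarith)
    have h3 : 0 ≤ Real.log 2 := Real.log_nonneg (by norm_num)
    push_cast at h1
    linarith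
  have hTail : A * S * (M : ℝ) ^ (-(1 / 8) : ℝ) ≤ A := by
    rw [mul_assoc]
    refine mul_le_of_le_one_right hA ?_
    rw [Real.rpow_neg (Nat.cast_nonneg M), ← div_eq_mul_inv, div_le_one (Real.rpow_pos_of_pos
      (by linarith) _)]
    calc S = (S ^ 8) ^ (1 / 8 : ℝ) := by
          rw [← Real.rpow_natCast S 8, ← Real.rpow_mul (by linarith)]; norm_num
      _ ≤ _ := Real.rpow_le_rpow (by positivity) hM8 (by norm_num)
  obtain ⟨n₀, hn₀⟩ : ∃ n₀ : ℕ, n₀ = finrank ℚ K := ⟨_, rfl⟩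
  have hn₀1 : (1 : ℝ) ≤ n₀ := Nat.one_le_cast.2 (hn₀ ▸ finrank_pos)
  rw [← hn₀]
  have key : ∀ s : ℝ, 1 < s → s ≤ 2 → -H - T ≤ logZeta K s 0 - logZeta ℚ s 0 ∧
      logZeta K s 0 - logZeta ℚ s 0 ≤ (n₀ - 1) * H + T := by
    intro s hs hs2
    have hsum : HasSum (fun n => (mangoldtK K n - mangoldtK ℚ n) * weight s n)
        (logZeta K s 0 - logZeta ℚ s 0) := by
      simpa only [sub_mul] using
        (hasSum_mangoldtK_weight K hs).sub (hasSum_mangoldtK_weight ℚ hs)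
    have hlim := hsum.tendsto_sum_nat
    have hup : ∀ N, M < N → -H - T ≤
        ∑ n ∈ range N, (mangoldtK K n - mangoldtK ℚ n) * weight s n ∧
        ∑ n ∈ range N, (mangoldtK K n - mangoldtK ℚ n) * weight s n ≤ (n₀ - 1) * H + T := by
      intro N hN
      have hsplit : ∑ n ∈ range N, (mangoldtK K n - mangoldtK ℚ n) * weight s n =
          ∑ n ∈ Ioc 0 M, (mangoldtK K n - mangoldtK ℚ n) * weight s n +
          ∑ n ∈ Ioc M (N - 1), (mangoldtK K n - mangoldtK ℚ n) * weight s n := by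
        rw [Finset.sum_Ioc_consecutive _ (Nat.zero_le M) (by omega : M ≤ N - 1)]
        refine (Finset.sum_subset (fun k hk => ?_) fun k hk hk' => ?_).symm
        · rw [Finset.mem_Ioc] at hk
          rw [Finset.mem_range]
          omega
        · rw [Finset.mem_range] at hk
          rw [Finset.mem_Ioc] at hk'
          obtain rfl : k = 0 := by omega
          simp [weight]
      have htail : |∑ n ∈ Ioc M (N - 1), (mangoldtK K n - mangoldtK ℚ n) * weight s n| ≤ T := by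
        refine (abs_tail_le (E := A * S) (by positivity) hs.le hs2 hM3 (by omega)
          (hS ▸ hD K hK hQ)).trans ?_
        rw [← hZ, hT]
        exact mul_le_mul_of_nonneg_left hTail (by positivity)
      have hhead := (head_le hs.le hM3).trans hHle
      have h0 : 0 ≤ ∑ n ∈ Ioc 0 M, Λ n * weight s n := Finset.sum_nonneg fun n _ =>
        mul_nonneg ArithmeticFunction.vonMangoldt_nonneg (weight_nonneg s n)
      have hlo : -H ≤ ∑ n ∈ Ioc 0 M, (mangoldtK K n - mangoldtK ℚ n) * weight s n := by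
        refine le_trans (neg_le_neg hhead) ?_
        rw [← Finset.sum_neg_distrib]
        refine Finset.sum_le_sum fun n _ => ?_
        rw [mangoldtK_rat, ← neg_mul]
        exact mul_le_mul_of_nonneg_right (by linarith [mangoldtK_nonneg K n]) (weight_nonneg s n)
      have hhi : ∑ n ∈ Ioc 0 M, (mangoldtK K n - mangoldtK ℚ n) * weight s n ≤ (n₀ - 1) * H := by
        refine le_trans (Finset.sum_le_sum
          (g := fun n => ((n₀ : ℝ) - 1) * (Λ n * weight s n)) fun n _ => ?_) ?_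
        · rw [mangoldtK_rat, ← mul_assoc]
          refine mul_le_mul_of_nonneg_right ?_ (weight_nonneg s n)
          rw [sub_mul, one_mul]
          exact sub_le_sub_right (hn₀ ▸ mangoldtK_le K n) _
        · rw [← Finset.mul_sum]
          exact mul_le_mul_of_nonneg_left hhead (by linarith)
      have ht := abs_le.1 htail
      rw [hsplit]
      constructor <;> linarith
    have hev : ∀ᶠ N : ℕ in atTop, M < N := eventually_gt_atTop M
    exact ⟨ge_of_tendsto hlim (hev.mono fun N hN => (hup N hN).1),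
      le_of_tendsto hlim (hev.mono fun N hN => (hup N hN).2)⟩
  have hlim := tendsto_logZeta_sub K
  have hev : ∀ᶠ s : ℝ in 𝓝[>] 1, 1 < s ∧ s ≤ 2 :=
    Filter.mem_of_superset (Ioo_mem_nhdsGT one_lt_two) fun s hs => ⟨hs.1, hs.2.le⟩
  have hres := dedekindZeta_residue_pos K
  have hl18 : (0 : ℝ) < 18 * Real.log (2 * S) := by linarith
  refine ⟨?_, ?_⟩
  · have h1 := Real.exp_le_exp.2 (ge_of_tendsto hlim (hev.mono fun s hs => (key s hs.1 hs.2).1))
    rw [Real.exp_log hres] at h1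
    refine le_of_eq_of_le ?_ h1
    rw [hH, show -(Real.log (18 * Real.log (2 * S)) + 7) - T =
      -(7 + T) - Real.log (18 * Real.log (2 * S)) by ring, Real.exp_sub, Real.exp_log hl18,
      div_div]
  · rcases Nat.lt_or_ge n₀ 2 with h1 | h2
    · rw [show n₀ - 1 = 0 by omega, pow_zero, ← Real.exp_log hres, Real.exp_le_one_iff]
      refine le_of_tendsto hlim (hev.mono fun s hs => sub_nonpos.2 ?_)
      refine hasSum_le (fun n => ?_) (hasSum_mangoldtK_weight K hs.1)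
        (hasSum_mangoldtK_weight ℚ hs.1)
      refine mul_le_mul_of_nonneg_right ?_ (weight_nonneg s n)
      have h0 : n₀ = 1 := by
        have : 1 ≤ n₀ := by exact_mod_cast hn₀1
        omega
      refine (mangoldtK_le K n).trans_eq ?_
      rw [← hn₀, h0, mangoldtK_rat, Nat.cast_one, one_mul]
    · have h1 := Real.exp_le_exp.2 (le_of_tendsto hlim (hev.mono fun s hs => (key s hs.1 hs.2).2))
      rw [Real.exp_log hres] at h1
      refine h1.trans ?_
      rw [mul_pow, mul_pow, ← Real.exp_nat_mul, Nat.cast_sub (by omega), Nat.cast_one]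
      have e : Real.exp (((n₀ : ℝ) - 1) * H + T) =
          (18 * Real.log (2 * S)) ^ (n₀ - 1) * Real.exp (((n₀ : ℝ) - 1) * 7 + T) := by
        conv_rhs => rw [← Real.exp_log (pow_pos hl18 (n₀ - 1)), ← Real.exp_add]
        rw [Real.log_pow, Nat.cast_sub (by omega), Nat.cast_one, hH]
        congr 1
        ring
      rw [e, mul_pow]
      have h3 : Real.exp (((n₀ : ℝ) - 1) * 7 + T) ≤ Real.exp (((n₀ : ℝ) - 1) * (7 + T)) := by
        refine Real.exp_le_exp.2 ?_
        have : (2 : ℝ) ≤ n₀ := by exact_mod_cast h2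
        nlinarith
      calc _ ≤ (18 : ℝ) ^ (n₀ - 1) * Real.log (2 * S) ^ (n₀ - 1) *
            Real.exp (((n₀ : ℝ) - 1) * (7 + T)) := mul_le_mul_of_nonneg_left h3 (by positivity)
        _ = _ := by ring

end FA.LittlewoodGRH

end
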