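import Fermat.Agent.DedekindPrimeIdeals.Dirichlet
import Fermat.Agent.DedekindZeroFree.ThreeFourOne
import Fermat.Agent.ArtinL.DegreeOne
import Mathlib.Analysis.SpecialFunctions.Pow.Deriv
import Mathlib.NumberTheory.LSeries.RiemannZeta

/-!
# `log ζ_K s = ∑ Λ_K n n ^ (-s) / log n`

With `Λ_ℚ = Λ`, `ζ s ≤ s / (s - 1)` and the passage to the residues at `s = 1`.
-/

set_option autoImplicit false
set_option linter.style.haveILetI false

noncomputable section

universe u

open NumberField IsDedekindDomain Module Ideal Filter Topology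
open FA.DedekindPIT (mangoldtK mangoldtK_le)
open FA.DedekindZF (logZeta hasSum_logZeta term_re)
open FA.PrimeIdeal (PowFiber)
open scoped Real Classical ArithmeticFunction.vonMangoldt

namespace FA.LittlewoodGRH

/-- `n ^ (-s) / log n`. -/
def weight (s : ℝ) (n : ℕ) : ℝ := (n : ℝ) ^ (-s) / Real.log n

theorem weight_nonneg (s : ℝ) (n : ℕ) : 0 ≤ weight s n :=
  div_nonneg (Real.rpow_nonneg (Nat.cast_nonneg n) _) (Real.log_natCast_nonneg n)

variable (K : Type u) [Field K] [NumberField K]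

/-- **The logarithm of the zeta function.** -/
theorem hasSum_mangoldtK_weight {s : ℝ} (hs : 1 < s) :
    HasSum (fun n => mangoldtK K n * weight s n) (logZeta K s 0) := by
  have h := hasSum_logZeta K hs 0
  rw [← (Equiv.sigmaFiberEquiv fun p : HeightOneSpectrum (𝓞 K) × ℕ =>
    absNorm p.1.asIdeal ^ (p.2 + 1)).hasSum_iff] at h
  refine h.sigma fun n => ?_
  have hsum := h.summable.sigma_factor n
  have e : ∀ p : PowFiber K n,
      (FA.ArtinL.term (fun _ : K ≃ₐ[K] K => (1 : ℂ)) ((s : ℂ) + (0 : ℝ) * Complex.I) p.1).re =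
        1 * Real.log (absNorm p.1.1.asIdeal : ℝ) * weight s n := fun p => by
    rw [term_re, zero_mul, Real.cos_zero, mul_one, one_mul]
    obtain ⟨l, hl⟩ : ∃ l, l = Real.log (absNorm p.1.1.asIdeal : ℝ) := ⟨_, rfl⟩
    have hl0 : 0 < l := hl ▸ Real.log_pos (Nat.one_lt_cast.2 (FA.Ext.two_le_absNorm p.1.1))
    have hn : ((p.1.2 + 1 : ℕ) : ℝ) * l = Real.log n := by
      rw [hl, ← Real.log_pow, ← Nat.cast_pow, p.2]
    have hm : (0 : ℝ) < (p.1.2 + 1 : ℕ) := Nat.cast_pos.2 (Nat.succ_pos _)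
    have hln : 0 < Real.log n := hn ▸ mul_pos hm hl0
    have hn0 : (0 : ℝ) < n := Nat.cast_pos.2 (Nat.pos_of_ne_zero fun h0 => by
      rw [h0, Nat.cast_zero, Real.log_zero] at hln; exact hln.false)
    rw [← hl, weight, Real.rpow_def_of_pos hn0, ← hn,
      show (((p.1.2 + 1 : ℕ) : ℝ) * l) * (-s) = -(s * (((p.1.2 + 1 : ℕ) : ℝ) * l)) by ring]
    field_simp
  have hfin : mangoldtK K n * weight s n = ∑' p : PowFiber K n,
      (FA.ArtinL.term (fun _ : K ≃ₐ[K] K => (1 : ℂ)) ((s : ℂ) + (0 : ℝ) * Complex.I) p.1).re := by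
    rw [tsum_congr e, tsum_mul_right]
    rfl
  rw [hfin]
  exact hsum.hasSum

/-- Over `ℚ` this is von Mangoldt's function. -/
theorem mangoldtK_rat (n : ℕ) : mangoldtK ℚ n = Λ n := by
  refine le_antisymm ((mangoldtK_le ℚ n).trans_eq (by rw [Module.finrank_self, Nat.cast_one,
    one_mul])) ?_
  rw [ArithmeticFunction.vonMangoldt_apply]
  split_ifs with h
  · obtain ⟨p, k, hp, hk, rfl⟩ := (isPrimePow_nat_iff n).1 h
    rw [Nat.pow_minFac hk.ne', hp.minFac_eq]
    have hne : Ideal.span {((p : ℕ) : 𝓞 ℚ)} ≠ ⊤ := fun he => by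
      have := congrArg Ideal.absNorm he
      rw [Ideal.absNorm_span_singleton, ← map_natCast (algebraMap ℤ (𝓞 ℚ)), Algebra.norm_algebraMap,
        RingOfIntegers.rank, Module.finrank_self, pow_one, Int.natAbs_natCast,
        Ideal.absNorm_top] at this
      exact hp.ne_one this
    obtain ⟨P, hP, hle⟩ := Ideal.exists_le_maximal _ hne
    have hP0 : P ≠ ⊥ := Ring.ne_bot_of_isMaximal_of_not_isField hP (RingOfIntegers.not_isField ℚ)
    obtain ⟨v, hv⟩ : ∃ v : HeightOneSpectrum (𝓞 ℚ), v = ⟨P, hP.isPrime, hP0⟩ := ⟨_, rfl⟩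
    have hN : absNorm v.asIdeal = p := by
      have h1 : absNorm v.asIdeal ∣ p := by
        have := map_dvd Ideal.absNorm
          (Ideal.dvd_span_singleton.2 (hle (Ideal.mem_span_singleton_self (p : 𝓞 ℚ))))
        rw [hv]
        rwa [Ideal.absNorm_span_singleton, ← map_natCast (algebraMap ℤ (𝓞 ℚ)),
          Algebra.norm_algebraMap, RingOfIntegers.rank, Module.finrank_self, pow_one,
          Int.natAbs_natCast] at this
      rcases (Nat.dvd_prime hp).1 h1 with h2 | h2
      · have := FA.Ext.two_le_absNorm v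
        omega
      · exact h2
    refine le_trans ?_ ((FA.Hecke.summable_fiberSum (w := fun _ => (1 : ℝ)) (B := 1)
      (fun _ => zero_le_one) (fun _ => le_rfl) (p ^ k)).le_tsum
        (⟨(v, k - 1), by rw [hN, Nat.sub_add_cancel hk]⟩ : PowFiber ℚ (p ^ k))
        fun q _ => mul_nonneg zero_le_one (Real.log_natCast_nonneg _))
    rw [one_mul, hN]
  · exact FA.DedekindPIT.mangoldtK_nonneg ℚ n

/-- **`log ζ σ ≤ log (σ / (σ - 1))`.** -/
theorem logZeta_rat_le {σ : ℝ} (hσ : 1 < σ) : logZeta ℚ σ 0 ≤ Real.log (σ / (σ - 1)) := by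
  obtain ⟨e, he, rfl⟩ : ∃ e, 0 < e ∧ σ = 1 + e := ⟨σ - 1, by linarith, by ring⟩
  have hre : 1 < (((1 + e : ℝ) : ℂ) + (0 : ℝ) * Complex.I).re := by simpa using hσ
  have hsum : Summable fun n : ℕ => 1 / (n : ℝ) ^ (1 + e) := Real.summable_one_div_nat_rpow.2 hσ
  have key : ∀ N : ℕ, e * ∑ n ∈ Finset.Icc 2 (N + 1), 1 / (n : ℝ) ^ (1 + e) ≤
      1 - ((N + 1 : ℕ) : ℝ) ^ (-e) := by
    intro N
    induction N with
    | zero => simp
    | succ N ih =>
      rw [show N + 1 + 1 = (N + 1) + 1 from rfl, Finset.sum_Icc_succ_top (by omega), mul_add]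
      obtain ⟨m, hm⟩ : ∃ m : ℝ, m = ((N + 1 : ℕ) : ℝ) := ⟨_, rfl⟩
      have hm1 : 1 ≤ m := hm ▸ Nat.one_le_cast.2 (Nat.succ_pos N)
      have hstep : e * (1 / (m + 1) ^ (1 + e)) ≤ m ^ (-e) - (m + 1) ^ (-e) := by
        have hmm : 0 < m + 1 := by linarith
        have h1 : e / (m + 1) + 1 ≤ (m / (m + 1)) ^ (-e) := by
          rw [Real.rpow_def_of_pos (div_pos (by linarith) hmm)]
          refine le_trans (add_le_add ?_ le_rfl) (Real.add_one_le_exp _)
          have := Real.log_le_sub_one_of_pos (div_pos (show 0 < m by linarith) hmm)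
          have h3 : m / (m + 1) - 1 = -(1 / (m + 1)) := by field_simp; ring
          have h4 : e / (m + 1) = e * (1 / (m + 1)) := by ring
          nlinarith
        rw [Real.div_rpow (by linarith) hmm.le,
          le_div_iff₀ (Real.rpow_pos_of_pos hmm _)] at h1
        rw [Real.rpow_add hmm, Real.rpow_one]
        have h2 : e * (1 / ((m + 1) * (m + 1) ^ e)) = e / (m + 1) * (m + 1) ^ (-e) := by
          rw [Real.rpow_neg hmm.le]; field_simp
        rw [h2]
        linarith
      push_cast at hm ih ⊢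
      rw [← hm] at ih ⊢
      linarith
  have hle : ∑' n : ℕ, 1 / (n : ℝ) ^ (1 + e) ≤ (1 + e) / e := by
    refine Real.tsum_le_of_sum_range_le (fun n => by positivity) fun n => ?_
    have hsub : Finset.range n ⊆ insert 0 (insert 1 (Finset.Icc 2 (n + 1))) := fun k hk => by
      rw [Finset.mem_range] at hk
      simp only [Finset.mem_insert, Finset.mem_Icc]
      omega
    refine (Finset.sum_le_sum_of_subset_of_nonneg hsub fun k _ _ => by positivity).trans ?_
    rw [Finset.sum_insert (by simp), Finset.sum_insert (by simp), Nat.cast_zero, Nat.cast_one,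
      Real.zero_rpow (by linarith), div_zero, zero_add, Real.one_rpow, div_one, le_div_iff₀ he]
    have h1 := key n
    have : 0 ≤ ((n + 1 : ℕ) : ℝ) ^ (-e) := Real.rpow_nonneg (Nat.cast_nonneg _) _
    linarith
  rw [logZeta, FA.ArtinL.dedekindZeta_rat hre, zeta_eq_tsum_one_div_nat_cpow hre,
    show (1 + e - 1 : ℝ) = e by ring]
  have hnorm : ∀ n : ℕ, ‖(1 : ℂ) / (n : ℂ) ^ ((((1 + e : ℝ)) : ℂ) + (0 : ℝ) * Complex.I)‖ =
      1 / (n : ℝ) ^ (1 + e) := fun n => by
    rw [Complex.ofReal_zero, zero_mul, add_zero, norm_div, norm_one,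
      ← Complex.ofReal_natCast, ← Complex.ofReal_cpow (Nat.cast_nonneg n), Complex.norm_real,
      Real.norm_of_nonneg (Real.rpow_nonneg (Nat.cast_nonneg n) _)]
  have h2 := norm_tsum_le_tsum_norm (hsum.congr fun n => (hnorm n).symm)
  rw [tsum_congr hnorm] at h2
  rcases (norm_nonneg (∑' n : ℕ,
    (1 : ℂ) / (n : ℂ) ^ ((((1 + e : ℝ)) : ℂ) + (0 : ℝ) * Complex.I))).eq_or_lt with h0 | h0
  · rw [← h0, Real.log_zero]
    exact Real.log_nonneg (by rw [le_div_iff₀ he]; linarith)
  · exact Real.log_le_log h0 (h2.trans hle)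

theorem residue_rat : dedekindZeta_residue ℚ = 1 := by
  have h1 := tendsto_sub_one_mul_dedekindZeta_nhdsGT ℚ
  have h2 : Tendsto (fun s : ℝ => ((s : ℂ) - 1) * riemannZeta s) (𝓝[>] 1) (𝓝 1) := by
    refine riemannZeta_residue_one.comp (tendsto_nhdsWithin_iff.2 ⟨?_, ?_⟩)
    · exact (Complex.continuous_ofReal.tendsto 1).mono_left nhdsWithin_le_nhds
    · filter_upwards [self_mem_nhdsWithin] with s hs
      simpa using (Set.mem_Ioi.1 hs).ne'
  have h3 := tendsto_nhds_unique h1 (h2.congr' (by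
    filter_upwards [self_mem_nhdsWithin] with s hs
    rw [FA.ArtinL.dedekindZeta_rat (by simpa using hs)]))
  exact_mod_cast h3

/-- The residue as a limit of logarithms. -/
theorem tendsto_log_sub_one_add :
    Tendsto (fun s : ℝ => Real.log (s - 1) + logZeta K s 0) (𝓝[>] 1)
      (𝓝 (Real.log (dedekindZeta_residue K))) := by
  have h := (tendsto_sub_one_mul_dedekindZeta_nhdsGT K).norm
  rw [Complex.norm_real, Real.norm_of_nonneg (dedekindZeta_residue_pos K).le] at h
  refine ((Real.continuousAt_log (dedekindZeta_residue_pos K).ne').tendsto.comp h).congr' ?_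
  filter_upwards [self_mem_nhdsWithin] with s hs
  have hs' : 1 < s := hs
  have hne : dedekindZeta K (s : ℂ) ≠ 0 := by
    rw [← FA.ArtinL.artinL_one (L := K) (show 1 < (s : ℂ).re by simpa using hs'), FA.ArtinL.artinL]
    exact Complex.exp_ne_zero _
  simp only [Function.comp_apply, norm_mul]
  rw [← Complex.ofReal_one, ← Complex.ofReal_sub, Complex.norm_real,
    Real.norm_of_nonneg (by linarith), Real.log_mul (by linarith) (norm_ne_zero_iff.2 hne),
    logZeta, Complex.ofReal_zero, zero_mul, add_zero]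

/-- **The residue against that of `ℚ`.** -/
theorem tendsto_logZeta_sub :
    Tendsto (fun s : ℝ => logZeta K s 0 - logZeta ℚ s 0) (𝓝[>] 1)
      (𝓝 (Real.log (dedekindZeta_residue K))) := by
  have h := (tendsto_log_sub_one_add K).sub (tendsto_log_sub_one_add ℚ)
  rw [residue_rat, Real.log_one, sub_zero] at h
  exact h.congr fun s => by ring

end FA.LittlewoodGRH

end
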